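import Fermat.Agent.Sharpness.SmoothTriples
import Fermat.Agent.StewartTijdeman.Lower
import Mathlib.Analysis.SpecialFunctions.Log.Monotone

/-!
# Triples of Stewart and Tijdeman

The `t - 1` odd primes among the first `5 t log t` numbers with exponents up to eight times that
give two smooth numbers so congruent modulo a power of `2` that the triple gains `exp t` over its
radical, while `√(log c) ≤ 10 t log t`.
-/

set_option autoImplicit false

noncomputable section

open Filter Real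
open UniqueFactorizationMonoid (radical radical_pow)

namespace FA.AbcStewartTijdeman

/-- `√x / log x`. -/
def gain (x : ℝ) : ℝ := Real.sqrt x / Real.log x

theorem exists_triple_param {t : ℕ} (h1 : 1 ≤ Real.log t) (h2 : 2000 * Real.log t ≤ (t : ℝ)) :
    ∃ a b c : ℕ, 0 < a ∧ 0 < b ∧ a.Coprime b ∧ a + b = c ∧
      ((radical (a * b * c) : ℕ) : ℝ) * Real.exp t ≤ c ∧
      Real.sqrt (Real.log c) ≤ 10 * t * Real.log t := by
  obtain ⟨N, hN, hNt⟩ := StewartTijdeman.enough_primes h1 h2
  set L := Real.log t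
  have ht : (2000 : ℝ) ≤ t := by linarith
  have ht5 : 5 ≤ t := by exact_mod_cast (by linarith : (5 : ℝ) ≤ t)
  obtain ⟨P, hP, hPc⟩ := Finset.exists_subset_card_eq (s := (Nat.primesLE N).erase 2) (n := t - 1)
    (by have := Finset.pred_card_le_card_erase (s := Nat.primesLE N) (a := 2); omega)
  have hprime : ∀ p ∈ P, p.Prime ∧ p ≤ N := fun p hp =>
    ⟨(Nat.mem_primesLE.1 (Finset.mem_of_mem_erase (hP hp))).2,
      (Nat.mem_primesLE.1 (Finset.mem_of_mem_erase (hP hp))).1⟩
  have h2P : 2 ∉ P := fun h => (Finset.mem_erase.1 (hP h)).1 rfl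
  have hne : P.Nonempty := Finset.card_pos.1 (by omega)
  have hN2 : 2 ≤ N := by
    obtain ⟨p, hp⟩ := hne
    exact (hprime p hp).1.two_le.trans (hprime p hp).2
  obtain ⟨a, b, c, m, ha, hb, hab, habc, hcle, hcnt, -, hrad⟩ :=
    Sharpness.exists_triple P (fun p hp => (hprime p hp).1) h2P hne (show 0 < 8 * N by omega)
  set Q := ∏ p ∈ P, p
  have hQ : Q ≤ N ^ (t - 1) := by
    rw [← hPc, ← Finset.prod_const]
    exact Finset.prod_le_prod' fun p hp => (hprime p hp).2
  refine ⟨a, b, c, ha, hb, hab, habc, ?_, ?_⟩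
  · set r := radical (a * b * c)
    have key : r * 8 ^ (t - 1) ≤ 4 * c := by
      refine Nat.le_of_mul_le_mul_right ?_ (pow_pos (show 0 < N by omega) (t - 1))
      calc r * 8 ^ (t - 1) * N ^ (t - 1) = r * (8 * N) ^ (t - 1) := by ring
        _ ≤ r * (8 * N + 1) ^ P.card := by
            rw [hPc]; exact Nat.mul_le_mul_left _ (Nat.pow_le_pow_left (by omega) _)
        _ ≤ r * 2 ^ (m + 1) := Nat.mul_le_mul_left _ hcnt
        _ = 2 * (r * 2 ^ m) := by ring
        _ ≤ 2 * (Q * (2 * b)) := Nat.mul_le_mul_left _ hrad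
        _ ≤ 2 * (N ^ (t - 1) * (2 * c)) :=
            Nat.mul_le_mul_left _ (Nat.mul_le_mul hQ (by omega))
        _ = 4 * c * N ^ (t - 1) := by ring
    have h8 : 4 * Real.exp t ≤ (8 : ℝ) ^ (t - 1) := by
      have he : Real.exp 1 ≤ 2.72 := by linarith [Real.exp_one_lt_d9]
      obtain ⟨u, rfl⟩ : ∃ u, t = u + 1 := ⟨t - 1, by omega⟩
      rw [Nat.add_sub_cancel, ← Real.exp_one_pow]
      calc 4 * Real.exp 1 ^ (u + 1) ≤ 4 * (2.72 : ℝ) ^ (u + 1) :=
            mul_le_mul_of_nonneg_left (pow_le_pow_left₀ (Real.exp_pos 1).le he _) (by norm_num)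
        _ = (4 * 2.72) * (2.72 : ℝ) ^ u := by ring
        _ ≤ (8 / 2.72 : ℝ) ^ u * (2.72 : ℝ) ^ u :=
            mul_le_mul_of_nonneg_right ((show (4 * 2.72 : ℝ) ≤ (8 / 2.72) ^ 3 by norm_num).trans
              (pow_le_pow_right₀ (by norm_num) (by omega))) (by positivity)
        _ = (8 : ℝ) ^ u := by rw [← mul_pow]; norm_num
    have key' : (r : ℝ) * (8 : ℝ) ^ (t - 1) ≤ 4 * c := by exact_mod_cast key
    nlinarith [mul_le_mul_of_nonneg_left h8 (Nat.cast_nonneg r : (0 : ℝ) ≤ r)]
  · refine Real.sqrt_le_iff.2 ⟨by positivity, ?_⟩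
    have hc1 : (1 : ℝ) ≤ c := by exact_mod_cast (show 1 ≤ c by omega)
    have hcN : (c : ℝ) ≤ (N : ℝ) ^ ((t - 1) * (8 * N)) := by
      have : c ≤ N ^ ((t - 1) * (8 * N)) := by
        rw [pow_mul]; exact hcle.trans (Nat.pow_le_pow_left hQ _)
      exact_mod_cast this
    have hlog := Real.log_le_log (by linarith) hcN
    rw [Real.log_pow] at hlog
    push_cast [Nat.cast_sub (show 1 ≤ t by omega)] at hlog
    have hN0 : (0 : ℝ) < N := by exact_mod_cast (show 0 < N by omega)
    have hlogN : Real.log (N : ℝ) ≤ 2 * L := by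
      refine (Real.log_le_log hN0
        (hN.trans (show 5 * (t : ℝ) * L ≤ t * t by nlinarith))).trans_eq ?_
      rw [Real.log_mul (by linarith) (by linarith)]; ring
    have hlogN0 : (0 : ℝ) ≤ Real.log (N : ℝ) := Real.log_natCast_nonneg N
    calc Real.log (c : ℝ) ≤ ((t : ℝ) - 1) * (8 * N) * Real.log (N : ℝ) := hlog
      _ ≤ (t : ℝ) * (8 * (5 * t * L)) * (2 * L) := by
          refine mul_le_mul (mul_le_mul (by linarith) (by linarith) (by positivity) (by linarith))
            hlogN hlogN0 (by positivity)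
      _ ≤ (10 * t * L) ^ 2 := by nlinarith [sq_nonneg ((t : ℝ) * L)]

/-- The triples, with the gain of every number up to `c` below `10 t`. -/
theorem exists_triples (C : ℝ) : ∀ᶠ t : ℕ in atTop, ∃ a b c : ℕ, 0 < a ∧ 0 < b ∧ a.Coprime b ∧
    a + b = c ∧ C ≤ (t : ℝ) ∧ ((radical (a * b * c) : ℕ) : ℝ) * Real.exp t ≤ c ∧
    ∀ n : ℕ, n ≤ c → gain (Real.log n) ≤ 10 * t := by
  set M := ⌈Real.exp (Real.exp 2)⌉₊
  obtain ⟨B, hB⟩ := ((Finset.range (M + 1)).image fun n : ℕ => gain (Real.log n)).bddAbove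
  filter_upwards [StewartTijdeman.eventually_large,
    tendsto_natCast_atTop_atTop.eventually_ge_atTop (max C (max B (Real.exp 2)))] with t ht hbig
  simp only [max_le_iff] at hbig
  obtain ⟨a, b, c, ha, hb, hab, habc, hexp, hsqrt⟩ := exists_triple_param ht.1 ht.2
  refine ⟨a, b, c, ha, hb, hab, habc, hbig.1, hexp, fun n hn => ?_⟩
  have hR := FA.Abc.one_le_rad_cast (a * b * c)
  have hc : Real.exp t ≤ c := le_trans (by nlinarith [Real.exp_pos (t : ℝ)]) hexp
  have htc : (t : ℝ) ≤ Real.log c :=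
    (Real.le_log_iff_exp_le (lt_of_lt_of_le (Real.exp_pos _) hc)).2 hc
  have he2 : Real.exp 2 ≤ Real.log c := hbig.2.2.trans htc
  have h2L : (2 : ℝ) ≤ Real.log (Real.log c) :=
    (Real.le_log_iff_exp_le ((Real.exp_pos 2).trans_le he2)).2 he2
  have hLc : Real.log t ≤ Real.log (Real.log c) :=
    Real.log_le_log (lt_of_lt_of_le (Real.exp_pos 2) hbig.2.2) htc
  have hgc : gain (Real.log c) ≤ 10 * t := by
    rw [gain, div_le_iff₀ (by linarith)]
    exact hsqrt.trans (mul_le_mul_of_nonneg_left hLc (by positivity))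
  rcases le_or_gt n M with hnM | hnM
  · have : gain (Real.log n) ≤ B := hB <| by
      simpa using ⟨n, hnM, rfl⟩
    linarith [hbig.2.1, (Nat.cast_nonneg t : (0 : ℝ) ≤ t)]
  · refine le_trans ?_ hgc
    have hn0 : (0 : ℝ) < n := by exact_mod_cast (show 0 < n by omega)
    have hx : Real.exp 2 ≤ Real.log n := (Real.le_log_iff_exp_le hn0).2
      ((Nat.le_ceil _).trans (by exact_mod_cast hnM.le))
    have hxy : Real.log (n : ℝ) ≤ Real.log c := Real.log_le_log hn0 (by exact_mod_cast hn)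
    have h2n : (2 : ℝ) ≤ Real.log (Real.log n) :=
      (Real.le_log_iff_exp_le ((Real.exp_pos 2).trans_le hx)).2 hx
    have hanti := Real.log_div_sqrt_antitoneOn hx (hx.trans hxy) hxy
    simp only at hanti
    rw [gain, gain, ← inv_div, ← inv_div (Real.log (Real.log c))]
    refine inv_anti₀ (div_pos (by linarith) (Real.sqrt_pos.2 ?_)) hanti
    linarith [Real.exp_pos 2]

/-- Triples beat `exp` of any small multiple of the gain, by any factor. -/
theorem exists_gt_mul (C : ℝ) (B : ℕ) {κ : ℝ} (hκ : 0 < κ) (hκ' : κ ≤ 1 / 20) :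
    ∃ a b c : ℕ, 0 < a ∧ 0 < b ∧ a.Coprime b ∧ a + b = c ∧ B < c ∧
      C * ((radical (a * b * c) : ℕ) : ℝ) * Real.exp (κ * gain (Real.log c)) < c ∧
      ((radical (a * b * c) : ℕ) : ℝ) *
        Real.exp (κ * gain (Real.log (radical (a * b * c) : ℕ))) < c := by
  obtain ⟨t, a, b, c, ha, hb, hab, habc, hC, hexp, hgain⟩ :=
    (exists_triples (max (2 * |C| + 1) (B + 1))).exists
  simp only [max_le_iff] at hC
  set R := radical (a * b * c)
  have hR : (1 : ℝ) ≤ R := FA.Abc.one_le_rad_cast (a * b * c)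
  have hpos := Real.exp_pos (t : ℝ)
  have hc : Real.exp t ≤ c := le_trans (by nlinarith) hexp
  have hle : ∀ n ≤ c, Real.exp (κ * gain (Real.log n)) ≤ Real.exp ((t : ℝ) / 2) := fun n hn => by
    refine Real.exp_le_exp.2 ((mul_le_mul_of_nonneg_left (hgain n hn) hκ.le).trans ?_)
    nlinarith
  have hhalf : Real.exp (t : ℝ) = Real.exp ((t : ℝ) / 2) * Real.exp ((t : ℝ) / 2) := by
    rw [← Real.exp_add]; ring_nf
  have h2 := Real.add_one_le_exp ((t : ℝ) / 2)
  refine ⟨a, b, c, ha, hb, hab, habc, ?_, ?_, ?_⟩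
  · have := Real.add_one_le_exp (t : ℝ)
    exact_mod_cast (show (B : ℝ) < c by linarith)
  · calc C * R * Real.exp (κ * gain (Real.log c))
        ≤ |C| * R * Real.exp ((t : ℝ) / 2) := by
          refine mul_le_mul (mul_le_mul_of_nonneg_right (le_abs_self C) (by linarith))
            (hle c le_rfl) (Real.exp_pos _).le (by positivity)
      _ < Real.exp ((t : ℝ) / 2) * R * Real.exp ((t : ℝ) / 2) := by
          refine mul_lt_mul_of_pos_right (mul_lt_mul_of_pos_right ?_ (by linarith)) (Real.exp_pos _)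
          linarith [abs_nonneg C]
      _ = R * Real.exp t := by rw [hhalf]; ring
      _ ≤ c := hexp
  · have hRc : R ≤ c := by
      have : (R : ℝ) ≤ c :=
        le_trans (by nlinarith [Real.one_le_exp (Nat.cast_nonneg t : (0 : ℝ) ≤ t)]) hexp
      exact_mod_cast this
    refine lt_of_lt_of_le (mul_lt_mul_of_pos_left ((hle R hRc).trans_lt ?_) (by linarith)) hexp
    rw [hhalf]
    exact lt_mul_of_one_lt_left (Real.exp_pos _) (by linarith [abs_nonneg C])

/-- For a radical at most `M` times the one of the triple, in the sixth power. -/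
theorem exists_gt_pow (B : ℕ) (M : ℝ) (F : ℕ → ℕ → ℕ)
    (hF : ∀ a b, 0 < a → 0 < b → a.Coprime b →
      (F a b : ℝ) ≤ M * ((radical (a * b * (a + b)) : ℕ) : ℝ)) :
    ∃ a b : ℕ, 0 < a ∧ 0 < b ∧ a.Coprime b ∧ B < a + b ∧
      (F a b : ℝ) ^ 6 * Real.exp (1 / 20 * gain (Real.log (F a b))) < ((a : ℝ) + b) ^ 6 := by
  obtain ⟨t, a, b, c, ha, hb, hab, habc, hC, hexp, hgain⟩ :=
    (exists_triples (max (2 * |M| + 2) (B + 1))).exists
  subst habc
  simp only [max_le_iff] at hC
  set R := radical (a * b * (a + b))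
  have hR : (1 : ℝ) ≤ R := FA.Abc.one_le_rad_cast (a * b * (a + b))
  push_cast at hexp
  have h1 := Real.add_one_le_exp (t : ℝ)
  have hF' : (F a b : ℝ) ≤ |M| * R :=
    (hF a b ha hb hab).trans (mul_le_mul_of_nonneg_right (le_abs_self M) (by linarith))
  have hMt : |M| * R < R * Real.exp t := by
    rw [mul_comm |M|]
    exact mul_lt_mul_of_pos_left (by linarith [abs_nonneg M]) (by linarith)
  have hFc : F a b ≤ a + b := by
    have : (F a b : ℝ) ≤ (a : ℝ) + b := hF'.trans (hMt.le.trans hexp)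
    exact_mod_cast this
  refine ⟨a, b, ha, hb, hab, ?_, ?_⟩
  · have : (B : ℝ) < (a : ℝ) + b := by nlinarith [Real.exp_pos (t : ℝ)]
    exact_mod_cast this
  calc (F a b : ℝ) ^ 6 * Real.exp (1 / 20 * gain (Real.log (F a b)))
      ≤ (|M| * R) ^ 6 * Real.exp ((t : ℝ) / 2) := by
        refine mul_le_mul (pow_le_pow_left₀ (Nat.cast_nonneg _) hF' 6) (Real.exp_le_exp.2 ?_)
          (Real.exp_pos _).le (by positivity)
        linarith [hgain _ hFc]
    _ < (R * Real.exp t) ^ 6 := by
        rw [mul_pow, mul_pow (R : ℝ) (Real.exp t), mul_comm (|M| ^ 6), mul_assoc]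
        refine mul_lt_mul_of_pos_left ?_ (by positivity)
        calc |M| ^ 6 * Real.exp ((t : ℝ) / 2)
            < (|M| + 1) ^ 6 * Real.exp ((t : ℝ) / 2) := by
              refine mul_lt_mul_of_pos_right ?_ (Real.exp_pos _)
              exact pow_lt_pow_left₀ (by linarith) (abs_nonneg M) (by norm_num)
          _ ≤ Real.exp ((t : ℝ) / 2) ^ 6 * Real.exp ((t : ℝ) / 2) := by
              refine mul_le_mul_of_nonneg_right
                (pow_le_pow_left₀ (by positivity) ?_ 6) (Real.exp_pos _).le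
              linarith [Real.add_one_le_exp ((t : ℝ) / 2)]
          _ ≤ Real.exp (t : ℝ) ^ 6 := by
              rw [← Real.exp_nat_mul, ← Real.exp_nat_mul, ← Real.exp_add]
              refine Real.exp_le_exp.2 ?_
              push_cast
              linarith [abs_nonneg M]
    _ ≤ ((a : ℝ) + b) ^ 6 := pow_le_pow_left₀ (by positivity) hexp 6

end FA.AbcStewartTijdeman

end
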